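import Mathlib.LinearAlgebra.Basis.Basic
import Mathlib.LinearAlgebra.FreeModule.Basic
import Mathlib.RingTheory.Ideal.Operations
import Mathlib.RingTheory.Ideal.Maps

set_option autoImplicit false

namespace Fermat.Agent.S57.H28

open Module

section Descent

variable {A R N M ι : Type*} [CommRing A] [CommRing R] [AddCommGroup N] [Module A N]
    [AddCommGroup M] [Module R M] (ψ : A →+* R) (hψ : Function.Surjective ψ)
    (π : N →+ M) (hπ : Function.Surjective π)
    (hπs : ∀ (a : A) (x : N), π (a • x) = ψ a • π x)
    (I : Ideal A) (hker : ∀ x, π x = 0 ↔ x ∈ I • (⊤ : Submodule A N))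
    (hI : I ≤ RingHom.ker ψ) (B : Basis ι A N)

include hπs in
lemma descent_map_linearCombination (a : ι →₀ A) :
    π (Finsupp.linearCombination A B a) =
      Finsupp.linearCombination R (fun i => π (B i)) (a.mapRange ψ (map_zero ψ)) := by
  rw [Finsupp.linearCombination_apply, Finsupp.linearCombination_apply,
    Finsupp.sum_mapRange_index (h := fun i c => c • π (B i)) (fun i => zero_smul R _),
    Finsupp.sum, map_sum, Finsupp.sum]
  exact Finset.sum_congr rfl fun i _ => hπs _ _

include hker in
lemma descent_repr_mem (x : N) (hx : π x = 0) (i : ι) : B.repr x i ∈ I := by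
  have h := (hker x).mp hx
  rw [← B.span_eq, Submodule.mem_ideal_smul_span_iff_exists_sum] at h
  obtain ⟨a, ha, rfl⟩ := h
  have : B.repr (a.sum fun i c => c • B i) = a := by
    rw [← Finsupp.linearCombination_apply, B.repr_linearCombination]
  rw [this]
  exact ha i

include hψ hπs hker hI in
lemma descent_linearIndependent : LinearIndependent R (fun i => π (B i)) := by
  classical
  rw [linearIndependent_iff]
  intro l hl
  let g : R → A := fun x => if x = 0 then 0 else Function.surjInv hψ x
  have hg0 : g 0 = 0 := if_pos rfl
  have hg : ∀ x, ψ (g x) = x := by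
    intro x
    by_cases hx : x = 0
    · simp [g, hx]
    · simp only [g, if_neg hx]
      exact Function.surjInv_eq hψ x
  let a : ι →₀ A := l.mapRange g hg0
  have hal : a.mapRange ψ (map_zero ψ) = l := by
    ext i
    simp [a, hg]
  have h1 := descent_map_linearCombination ψ π hπs B a
  rw [hal, hl] at h1
  ext i
  have h2 := descent_repr_mem π I hker B _ h1 i
  rw [B.repr_linearCombination] at h2
  have h3 : ψ (a i) = 0 := hI h2
  rw [← hal]
  simpa using h3

include hπ hπs in
lemma descent_span : Submodule.span R (Set.range fun i => π (B i)) = ⊤ := by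
  rw [eq_top_iff]
  rintro m -
  obtain ⟨x, rfl⟩ := hπ m
  rw [← B.linearCombination_repr x, descent_map_linearCombination ψ π hπs B,
    Finsupp.linearCombination_apply]
  exact Submodule.sum_mem _ fun i _ =>
    Submodule.smul_mem _ _ (Submodule.subset_span ⟨i, rfl⟩)

include hπs hker hI B in
lemma descent_ker_eq [Nonempty ι] : RingHom.ker ψ = I := by
  refine le_antisymm ?_ hI
  intro f hf
  obtain ⟨i₀⟩ := ‹Nonempty ι›
  have h1 : π (f • B i₀) = 0 := by
    rw [hπs, (RingHom.mem_ker).mp hf, zero_smul]
  have h2 := descent_repr_mem π I hker B _ h1 i₀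
  simpa using h2

include hψ hπ hπs hker hI B in
lemma descent_free : Module.Free R M :=
  Module.Free.of_basis (Basis.mk (descent_linearIndependent ψ hψ π hπs I hker hI B)
    (descent_span ψ π hπ hπs B).ge)

end Descent

end Fermat.Agent.S57.H28
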