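import Mathlib.RingTheory.FiniteLength
import Mathlib.Algebra.Module.Torsion.Basic
import Mathlib.RingTheory.Noetherian.Basic
import Mathlib.RingTheory.Ideal.Quotient.Basic
import Mathlib.RingTheory.Artinian.Module
import Mathlib.RingTheory.Finiteness.Basic

set_option autoImplicit false

namespace Fermat.Agent.S57.H28

/-- A module over an `𝒪`-algebra `A` which is finitely generated over `𝒪` and killed by
an element `ϖ` generating a maximal ideal has finite length over `A`. -/
lemma isFiniteLength_of_finite_of_smul_eq_zero {𝒪 A Q : Type*} [CommRing 𝒪] [CommRing A]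
    [Algebra 𝒪 A] [IsNoetherianRing A] [AddCommGroup Q] [Module A Q] [Module 𝒪 Q]
    [IsScalarTower 𝒪 A Q] (ϖ : 𝒪) (hϖ : (Ideal.span {ϖ}).IsMaximal)
    [Module.Finite 𝒪 Q] (hkill : ∀ q : Q, ϖ • q = 0) : IsFiniteLength A Q := by
  rw [isFiniteLength_iff_isNoetherian_isArtinian]
  have hfin : Module.Finite A Q := Module.Finite.of_restrictScalars_finite 𝒪 A Q
  refine ⟨inferInstance, ?_⟩
  have htor : Module.IsTorsionBy 𝒪 Q ϖ := fun x => hkill x
  let _ : Module (𝒪 ⧸ Ideal.span {ϖ}) Q := htor.module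
  let _ : Field (𝒪 ⧸ Ideal.span {ϖ}) := Ideal.Quotient.field _
  have : IsScalarTower 𝒪 (𝒪 ⧸ Ideal.span {ϖ}) Q :=
    Module.IsTorsionBySet.isScalarTower _
  have : Module.Finite (𝒪 ⧸ Ideal.span {ϖ}) Q :=
    Module.Finite.of_restrictScalars_finite 𝒪 _ Q
  have : IsArtinian (𝒪 ⧸ Ideal.span {ϖ}) Q := inferInstance
  have : IsArtinian 𝒪 Q :=
    isArtinian_of_surjective_algebraMap (R := 𝒪 ⧸ Ideal.span {ϖ}) (S := 𝒪)
      Ideal.Quotient.mk_surjective
  exact isArtinian_of_tower 𝒪 inferInstance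

end Fermat.Agent.S57.H28
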