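import Mathlib.RingTheory.Regular.ProjectiveDimension
import Mathlib.RingTheory.FiniteLength
import Mathlib.RingTheory.SimpleModule.Basic
import Mathlib.Algebra.Category.ModuleCat.ProjectiveDimension
import Mathlib.RingTheory.LocalRing.Module

set_option autoImplicit false

namespace Fermat.Agent.S57.H28

universe u

open CategoryTheory IsLocalRing RingTheory.Sequence

variable {R : Type u} [CommRing R] [IsLocalRing R] [IsNoetherianRing R]

/-- If the maximal ideal is generated by a regular sequence `rs`, the residue field has
projective dimension at most `rs.length`. -/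
lemma hasProjDimLE_quot_maximal (rs : List R) (reg : IsRegular R rs)
    (hrs : Ideal.ofList rs = maximalIdeal R) :
    HasProjectiveDimensionLE (ModuleCat.of R (R ⧸ maximalIdeal R)) rs.length := by
  have h := ModuleCat.projectiveDimension_quotient_eq_length.{u} rs reg
  have h1 : HasProjectiveDimensionLE
      (ModuleCat.of R (Shrink.{u} (R ⧸ Ideal.ofList rs))) rs.length := by
    rw [← projectiveDimension_le_iff, h]
  have e : (ModuleCat.of R (Shrink.{u} (R ⧸ Ideal.ofList rs))) ≃ₗ[R]
      (ModuleCat.of R (R ⧸ maximalIdeal R)) :=
    (Shrink.linearEquiv R (R ⧸ Ideal.ofList rs)).trans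
      (Submodule.quotEquivOfEq _ _ hrs)
  exact ModuleCat.hasProjectiveDimensionLE_of_linearEquiv e rs.length

omit [IsNoetherianRing R] in
/-- Over a local ring whose residue field has projective dimension `≤ n`, every module of
finite length has projective dimension `≤ n`. -/
lemma hasProjDimLE_of_isFiniteLength (n : ℕ)
    (hk : HasProjectiveDimensionLE (ModuleCat.of R (R ⧸ maximalIdeal R)) n)
    (Q : Type u) [AddCommGroup Q] [Module R Q] (hQ : IsFiniteLength R Q) :
    HasProjectiveDimensionLE (ModuleCat.of R Q) n := by
  induction hQ with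
  | of_subsingleton =>
    rename_i M _ _ _
    have hz : Limits.IsZero (ModuleCat.of R M) :=
      ModuleCat.isZero_of_subsingleton _
    have := hz.hasProjectiveDimensionLT_zero
    exact hasProjectiveDimensionLT_of_ge _ 0 (n + 1) (Nat.zero_le _)
  | of_simple_quotient h ih =>
    rename_i M _ _ N hs
    obtain ⟨m, hm, ⟨e⟩⟩ := isSimpleModule_iff_quot_maximal.mp hs
    rw [eq_maximalIdeal hm] at e
    have h3 : HasProjectiveDimensionLE (ModuleCat.of R (M ⧸ N)) n :=
      ModuleCat.hasProjectiveDimensionLE_of_linearEquiv
        (M := ModuleCat.of R (R ⧸ maximalIdeal R)) (N := ModuleCat.of R (M ⧸ N)) e.symm n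
    have hS := LinearMap.shortExact_shortComplexKer (Submodule.mkQ_surjective N)
    have h1 : HasProjectiveDimensionLE (ModuleCat.of R (LinearMap.ker N.mkQ)) n :=
      ModuleCat.hasProjectiveDimensionLE_of_linearEquiv
        (M := ModuleCat.of R N) (N := ModuleCat.of R (LinearMap.ker N.mkQ))
        (LinearEquiv.ofEq _ _ (Submodule.ker_mkQ N).symm) n
    exact hS.hasProjectiveDimensionLT_X₂ (n + 1) h1 h3

/-- Maximal Cohen–Macaulay ⇒ free, in the form we need. -/
theorem free_of_isWeaklyRegular_of_isFiniteLength (rs : List R) (reg : IsRegular R rs)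
    (hrs : Ideal.ofList rs = maximalIdeal R)
    (N : Type u) [AddCommGroup N] [Module R N] [Module.Finite R N]
    (ys : List R) (hys : IsWeaklyRegular N ys) (hmem : ∀ y ∈ ys, y ∈ maximalIdeal R)
    (hlen : ys.length = rs.length)
    (hfl : IsFiniteLength R (N ⧸ (Ideal.ofList ys • ⊤ : Submodule R N))) :
    Module.Free R N := by
  rcases subsingleton_or_nontrivial N with hN | hN
  · exact Module.Free.of_subsingleton R N
  have hk := hasProjDimLE_quot_maximal rs reg hrs
  have hQ := hasProjDimLE_of_isFiniteLength rs.length hk _ hfl
  have hpd := ModuleCat.projectiveDimension_quotient_eq_add_length_of_isWeaklyRegular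
    (ModuleCat.of R N) ys hys hmem
  rw [← projectiveDimension_le_iff, hpd, hlen] at hQ
  have h0 : projectiveDimension (ModuleCat.of R N) ≤ (0 : ℕ) := by
    have h2 : projectiveDimension (ModuleCat.of R N) + (rs.length : ℕ) ≤
        ((0 : ℕ) : WithBot ℕ∞) + (rs.length : ℕ) := by
      simpa using hQ
    exact (ENat.WithBot.add_le_add_natCast_right_iff).mp h2
  rw [projectiveDimension_le_iff] at h0
  have hproj : Projective (ModuleCat.of R N) :=
    (projective_iff_hasProjectiveDimensionLE_zero _).mpr h0
  have : Module.Projective R N := by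
    rw [← IsProjective.iff_projective] at hproj
    exact hproj
  exact Module.free_of_flat_of_isLocalRing

end Fermat.Agent.S57.H28
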