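import Mathlib.RingTheory.MvPowerSeries.Basic
import Mathlib.RingTheory.MvPowerSeries.Inverse
import Mathlib.RingTheory.Regular.RegularSequence

set_option autoImplicit false

namespace Fermat.Agent.S57.H28

open MvPowerSeries RingTheory.Sequence

variable {σ : Type*} {K : Type*} [CommRing K]

/-- Membership in the ideal generated by some of the variables of a power series ring. -/
lemma mem_ofList_map_X_iff (l : List σ) (f : MvPowerSeries σ K) :
    f ∈ Ideal.ofList (l.map (X : σ → MvPowerSeries σ K)) ↔
      ∀ m : σ →₀ ℕ, (∀ i ∈ l, m i = 0) → coeff m f = 0 := by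
  induction l generalizing f with
  | nil =>
    simp only [List.map_nil, Ideal.ofList_nil, Ideal.mem_bot, List.not_mem_nil,
      IsEmpty.forall_iff, implies_true, forall_const]
    constructor
    · rintro rfl m
      simp
    · intro h
      ext m
      simp [h]
  | cons a l ih =>
    rw [List.map_cons, Ideal.ofList_cons, Submodule.mem_sup]
    constructor
    · rintro ⟨g, hg, h, hh, rfl⟩ m hm
      rw [Ideal.mem_span_singleton] at hg
      rw [map_add, (X_dvd_iff.mp hg) m (hm a (by simp)),
        (ih h).mp hh m (fun i hi => hm i (by simp [hi])), add_zero]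
    · intro hf
      classical
      let f₀ : MvPowerSeries σ K := fun m => if m a = 0 then coeff m f else 0
      have hf₀ : ∀ m, coeff m f₀ = if m a = 0 then coeff m f else 0 := fun m => rfl
      refine ⟨f - f₀, ?_, f₀, ?_, by ring⟩
      · rw [Ideal.mem_span_singleton, X_dvd_iff]
        intro m hm
        rw [map_sub, hf₀, if_pos hm, sub_self]
      · rw [ih]
        intro m hm
        rw [hf₀]
        split_ifs with h
        · refine hf m ?_
          intro i hi
          rcases List.mem_cons.mp hi with rfl | hi
          · exact h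
          · exact hm i hi
        · rfl

/-- Distinct variables form a weakly regular sequence on the power series ring. -/
lemma isWeaklyRegular_map_X (l : List σ) (hl : l.Nodup) :
    IsWeaklyRegular (MvPowerSeries σ K) (l.map (X : σ → MvPowerSeries σ K)) := by
  induction l using List.reverseRecOn with
  | nil => exact IsWeaklyRegular.nil _ _
  | append_singleton l a ih =>
    rw [List.map_append, isWeaklyRegular_append_iff]
    have hl' : l.Nodup ∧ a ∉ l := by
      rw [List.nodup_append] at hl
      refine ⟨hl.1, fun ha => ?_⟩
      exact hl.2.2 a ha a (by simp) rfl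
    refine ⟨ih hl'.1, ?_⟩
    rw [List.map_singleton, isWeaklyRegular_singleton_iff,
      isSMulRegular_quotient_iff_mem_of_smul_mem]
    intro f hf
    rw [smul_eq_mul, Ideal.mul_top] at hf ⊢
    rw [mem_ofList_map_X_iff] at hf ⊢
    intro m hm
    have h := hf (Finsupp.single a 1 + m) (by
      intro i hi
      have hia : a ≠ i := by
        rintro rfl
        exact hl'.2 hi
      simp [hm i hi, hia])
    rwa [smul_eq_mul, X_def, coeff_add_monomial_mul, one_mul] at h

/-- Distinct variables followed by a regular constant form a weakly regular sequence. -/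
lemma isWeaklyRegular_map_X_append_C (l : List σ) (hl : l.Nodup) (ϖ : K)
    (hϖ : IsSMulRegular K ϖ) :
    IsWeaklyRegular (MvPowerSeries σ K)
      (l.map (X : σ → MvPowerSeries σ K) ++ [C ϖ]) := by
  rw [isWeaklyRegular_append_iff]
  refine ⟨isWeaklyRegular_map_X l hl, ?_⟩
  rw [isWeaklyRegular_singleton_iff, isSMulRegular_quotient_iff_mem_of_smul_mem]
  intro f hf
  rw [smul_eq_mul, Ideal.mul_top] at hf ⊢
  rw [mem_ofList_map_X_iff] at hf ⊢
  intro m hm
  have h := hf m hm
  rw [smul_eq_mul, coeff_C_mul] at h
  exact hϖ.right_eq_zero_of_smul (by simpa using h)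

/-- The variables together with a generator of the maximal ideal of the coefficient ring
generate the maximal ideal of the power series ring. -/
lemma ofList_map_X_append_C_eq_maximalIdeal [IsLocalRing K] (l : List σ)
    (hall : ∀ i, i ∈ l) (ϖ : K) (hϖ : IsLocalRing.maximalIdeal K = Ideal.span {ϖ}) :
    Ideal.ofList (l.map (X : σ → MvPowerSeries σ K) ++ [C ϖ]) =
      IsLocalRing.maximalIdeal (MvPowerSeries σ K) := by
  have hmax : ∀ f : MvPowerSeries σ K,
      f ∈ IsLocalRing.maximalIdeal (MvPowerSeries σ K) ↔
        constantCoeff f ∈ IsLocalRing.maximalIdeal K := by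
    intro f
    rw [IsLocalRing.mem_maximalIdeal, IsLocalRing.mem_maximalIdeal, mem_nonunits_iff,
      mem_nonunits_iff, isUnit_iff_constantCoeff]
  apply le_antisymm
  · rw [Ideal.span_le]
    intro f hf
    simp only [List.mem_append, List.mem_map, List.mem_singleton, Set.mem_ofPred_eq] at hf
    rw [SetLike.mem_coe, hmax]
    rcases hf with ⟨i, -, rfl⟩ | rfl
    · simp
    · rw [constantCoeff_C, hϖ]
      exact Ideal.subset_span rfl
  · intro f hf
    rw [hmax, hϖ, Ideal.mem_span_singleton] at hf
    obtain ⟨c, hc⟩ := hf
    rw [Ideal.ofList_append, Ideal.ofList_singleton, Submodule.mem_sup]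
    refine ⟨f - C (constantCoeff f), ?_, C (constantCoeff f), ?_, by ring⟩
    · rw [mem_ofList_map_X_iff]
      intro m hm
      have hm0 : m = 0 := by
        ext i
        exact hm i (hall i)
      subst hm0
      rw [map_sub, coeff_zero_C, coeff_zero_eq_constantCoeff_apply, sub_self]
    · rw [Ideal.mem_span_singleton, hc, map_mul]
      exact dvd_mul_right _ _

end Fermat.Agent.S57.H28
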