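import Fermat.Prelude.Def_Algebra_PatchingDatum
import Fermat.Agent.S57.H28.ProjDim
import Fermat.Agent.S57.H28.RegSeq
import Fermat.Agent.S57.H28.FiniteOverBase
import Fermat.Agent.S57.H28.Descent
import Mathlib.RingTheory.MvPowerSeries.Equiv
import Mathlib.RingTheory.DiscreteValuationRing.Basic

set_option autoImplicit false

namespace Fermat.Agent.S57.H28

open MvPowerSeries IsLocalRing RingTheory.Sequence

section Local

variable {𝒪 : Type} [CommRing 𝒪] [IsLocalRing 𝒪] {r : ℕ}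

/-- An `𝒪`-algebra endomorphism of the power series ring sends variables into the
maximal ideal. -/
lemma algHom_X_mem_maximalIdeal (φ : MvPowerSeries (Fin r) 𝒪 →ₐ[𝒪] MvPowerSeries (Fin r) 𝒪)
    (i : Fin r) : φ (X i) ∈ maximalIdeal (MvPowerSeries (Fin r) 𝒪) := by
  rw [mem_maximalIdeal, mem_nonunits_iff, isUnit_iff_constantCoeff]
  intro hu
  set c := constantCoeff (φ (X i)) with hc
  have h1 : IsUnit (X i - C c : MvPowerSeries (Fin r) 𝒪) := by
    rw [isUnit_iff_constantCoeff, map_sub, constantCoeff_X, constantCoeff_C, zero_sub]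
    exact hu.neg
  have h2 : IsUnit (φ (X i - C c)) := h1.map φ
  have h3 : φ (C c) = C c := by
    rw [c_eq_algebraMap]
    exact φ.commutes c
  rw [map_sub, isUnit_iff_constantCoeff, map_sub, h3, constantCoeff_C, ← hc, sub_self] at h2
  exact not_isUnit_zero h2

end Local

section Patch

variable {𝒪 : Type} [CommRing 𝒪]
    {r : ℕ} {R : Type} [CommRing R] [Algebra 𝒪 R]
    {M : Type} [AddCommGroup M] [Module R M]
    (L : Algebra.PatchingLevel 𝒪 r R M ⊥)

/-- The `φ`-semilinear additive equivalence `A^d ≃ N`. -/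
noncomputable def patchEquiv : (Fin L.d → MvPowerSeries (Fin r) 𝒪) ≃+ L.N :=
  AddEquiv.ofBijective
    (AddMonoidHom.mk' (fun c => ∑ i, L.φ (c i) • L.b i) (by
      intro c c'
      simp only [Pi.add_apply, map_add, add_smul, Finset.sum_add_distrib]))
    (by
      constructor
      · rw [injective_iff_map_eq_zero]
        intro c hc
        have := (L.b_rel c).mp hc
        ext1 i
        simpa using this i
      · intro x
        obtain ⟨c, hc⟩ := L.b_span x
        exact ⟨c, hc.symm⟩)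

lemma patchEquiv_apply (c : Fin L.d → MvPowerSeries (Fin r) 𝒪) :
    patchEquiv L c = ∑ i, L.φ (c i) • L.b i := rfl

lemma patchEquiv_smul (a : MvPowerSeries (Fin r) 𝒪)
    (c : Fin L.d → MvPowerSeries (Fin r) 𝒪) :
    patchEquiv L (a • c) = L.φ a • patchEquiv L c := by
  simp only [patchEquiv_apply, Pi.smul_apply, smul_eq_mul, map_mul, mul_smul, Finset.smul_sum]

lemma patch_finite : Module.Finite (MvPowerSeries (Fin r) 𝒪) L.N := by
  refine Module.Finite.of_surjective
    (Fintype.linearCombination (MvPowerSeries (Fin r) 𝒪) L.b) ?_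
  intro x
  obtain ⟨c, hc⟩ := L.b_span x
  refine ⟨fun i => L.φ (c i), ?_⟩
  rw [hc, Fintype.linearCombination_apply]

/-- The image under `φ` of a weakly regular sequence on `A` is weakly regular on `N`. -/
lemma patch_isWeaklyRegular (rs : List (MvPowerSeries (Fin r) 𝒪))
    (h : IsWeaklyRegular (MvPowerSeries (Fin r) 𝒪) rs) :
    IsWeaklyRegular L.N (rs.map L.φ) := by
  have h1 : IsWeaklyRegular (Fin L.d → MvPowerSeries (Fin r) 𝒪) rs := by
    have h2 := h.isWeaklyRegular_lTensor (M₂ := Fin L.d → MvPowerSeries (Fin r) 𝒪)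
    exact ((TensorProduct.rid (MvPowerSeries (Fin r) 𝒪)
      (Fin L.d → MvPowerSeries (Fin r) 𝒪)).isWeaklyRegular_congr rs).mp h2
  refine ((patchEquiv L).isWeaklyRegular_congr ?_).mp h1
  exact List.forall₂_map_right_iff.mpr <| List.forall₂_same.mpr fun a _ x =>
    patchEquiv_smul L a x

/-- The list `X₀, …, X_{r-1}, ϖ` in the power series ring. -/
noncomputable def paramList (𝒪 : Type) [CommRing 𝒪] (r : ℕ) (ϖ : 𝒪) :
    List (MvPowerSeries (Fin r) 𝒪) :=
  (List.finRange r).map (X : Fin r → MvPowerSeries (Fin r) 𝒪) ++ [C ϖ]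

lemma algHom_sub_C_mem (ϖ : 𝒪) (c : MvPowerSeries (Fin r) 𝒪) :
    L.φ c - C (constantCoeff c) ∈ Ideal.ofList ((paramList 𝒪 r ϖ).map L.φ) := by
  have h1 : c - C (constantCoeff c) ∈
      Ideal.ofList ((List.finRange r).map (X : Fin r → MvPowerSeries (Fin r) 𝒪)) := by
    rw [mem_ofList_map_X_iff]
    intro m hm
    have hm0 : m = 0 := by
      ext i
      exact hm i (List.mem_finRange i)
    subst hm0
    rw [map_sub, coeff_zero_C, coeff_zero_eq_constantCoeff_apply, sub_self]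
  have h2 := Ideal.mem_map_of_mem (L.φ : MvPowerSeries (Fin r) 𝒪 →+* MvPowerSeries (Fin r) 𝒪) h1
  rw [Ideal.map_ofList] at h2
  have h3 : (L.φ : MvPowerSeries (Fin r) 𝒪 →+* MvPowerSeries (Fin r) 𝒪)
      (c - C (constantCoeff c)) = L.φ c - C (constantCoeff c) := by
    rw [map_sub]
    congr 1
    rw [c_eq_algebraMap]
    exact L.φ.commutes _
  rw [h3] at h2
  refine Ideal.span_mono ?_ h2
  intro x hx
  simp only [paramList, List.map_append, List.mem_append, Set.mem_ofPred_eq] at hx ⊢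
  exact Or.inl hx

lemma C_mem_ofList_paramList (ϖ : 𝒪) :
    (C ϖ : MvPowerSeries (Fin r) 𝒪) ∈ Ideal.ofList ((paramList 𝒪 r ϖ).map L.φ) := by
  apply Ideal.subset_span
  simp only [paramList, List.map_append, List.mem_append, Set.mem_ofPred_eq, List.map_cons,
    List.map_nil, List.mem_singleton]
  right
  rw [c_eq_algebraMap]
  exact (L.φ.commutes _).symm

lemma patch_isFiniteLength [IsNoetherianRing 𝒪] (ϖ : 𝒪) (hϖ : (Ideal.span {ϖ}).IsMaximal) :
    IsFiniteLength (MvPowerSeries (Fin r) 𝒪)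
      (L.N ⧸ (Ideal.ofList ((paramList 𝒪 r ϖ).map L.φ) • ⊤ :
        Submodule (MvPowerSeries (Fin r) 𝒪) L.N)) := by
  set J : Ideal (MvPowerSeries (Fin r) 𝒪) := Ideal.ofList ((paramList 𝒪 r ϖ).map L.φ) with hJ
  have hkill : ∀ (j : MvPowerSeries (Fin r) 𝒪), j ∈ J →
      ∀ q : L.N ⧸ (J • ⊤ : Submodule (MvPowerSeries (Fin r) 𝒪) L.N), j • q = 0 := by
    intro j hj q
    exact @Module.isTorsionBySet_quotient_ideal_smul _ L.N _ _ _ J q ⟨j, hj⟩
  let _ : Module 𝒪 (L.N ⧸ (J • ⊤ : Submodule (MvPowerSeries (Fin r) 𝒪) L.N)) :=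
    Module.compHom _ (algebraMap 𝒪 (MvPowerSeries (Fin r) 𝒪))
  have hsmul : ∀ (a : 𝒪) (q : L.N ⧸ (J • ⊤ : Submodule (MvPowerSeries (Fin r) 𝒪) L.N)),
      a • q = (C a : MvPowerSeries (Fin r) 𝒪) • q := fun a q => rfl
  have : IsScalarTower 𝒪 (MvPowerSeries (Fin r) 𝒪)
      (L.N ⧸ (J • ⊤ : Submodule (MvPowerSeries (Fin r) 𝒪) L.N)) := by
    refine ⟨fun a f q => ?_⟩
    rw [hsmul, smul_eq_C_mul, mul_smul]
  have : Module.Finite 𝒪 (L.N ⧸ (J • ⊤ : Submodule (MvPowerSeries (Fin r) 𝒪) L.N)) := by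
    refine Module.Finite.of_surjective
      (Fintype.linearCombination 𝒪 (fun i => Submodule.Quotient.mk (L.b i))) ?_
    intro q
    obtain ⟨x, rfl⟩ := Submodule.Quotient.mk_surjective _ q
    obtain ⟨c, hc⟩ := L.b_span x
    refine ⟨fun i => constantCoeff (c i), ?_⟩
    rw [Fintype.linearCombination_apply, hc, ← Submodule.mkQ_apply, map_sum]
    refine Finset.sum_congr rfl fun i _ => ?_
    rw [hsmul, map_smul, Submodule.mkQ_apply, ← sub_eq_zero, ← sub_smul]
    have := hkill _ (algHom_sub_C_mem L ϖ (c i)) (Submodule.Quotient.mk (L.b i))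
    rw [← neg_eq_zero, ← neg_smul, neg_sub]
    exact this
  refine isFiniteLength_of_finite_of_smul_eq_zero ϖ hϖ fun q => ?_
  rw [hsmul]
  exact hkill _ (C_mem_ofList_paramList L ϖ) q

/-- The patched module is free over the power series ring. -/
theorem patch_free [IsDomain 𝒪] [IsDiscreteValuationRing 𝒪] :
    Module.Free (MvPowerSeries (Fin r) 𝒪) L.N := by
  obtain ⟨ϖ, hϖ⟩ := IsDiscreteValuationRing.exists_irreducible 𝒪
  have hmax : maximalIdeal 𝒪 = Ideal.span {ϖ} := hϖ.maximalIdeal_eq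
  have hmax' : (Ideal.span {ϖ}).IsMaximal := hmax ▸ maximalIdeal.isMaximal 𝒪
  have hreg : IsSMulRegular 𝒪 ϖ := IsSMulRegular.of_ne_zero hϖ.ne_zero
  have hw : IsWeaklyRegular (MvPowerSeries (Fin r) 𝒪) (paramList 𝒪 r ϖ) :=
    isWeaklyRegular_map_X_append_C _ (List.nodup_finRange r) ϖ hreg
  have hrs : Ideal.ofList (paramList 𝒪 r ϖ) = maximalIdeal (MvPowerSeries (Fin r) 𝒪) :=
    ofList_map_X_append_C_eq_maximalIdeal _ List.mem_finRange ϖ hmax
  have hmem : ∀ x ∈ paramList 𝒪 r ϖ, x ∈ maximalIdeal (MvPowerSeries (Fin r) 𝒪) :=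
    fun x hx => hrs ▸ Ideal.subset_span hx
  have hR : IsRegular (MvPowerSeries (Fin r) 𝒪) (paramList 𝒪 r ϖ) :=
    IsRegular.of_isWeaklyRegular_of_mem_maximalIdeal _ hmem hw
  have := patch_finite L
  refine free_of_isWeaklyRegular_of_isFiniteLength (paramList 𝒪 r ϖ) hR hrs L.N
    ((paramList 𝒪 r ϖ).map L.φ) (patch_isWeaklyRegular L _ hw) ?_ (by simp)
    (patch_isFiniteLength L ϖ hmax')
  intro y hy
  simp only [paramList, List.map_append, List.mem_append, List.map_map, List.mem_map,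
    List.map_cons, List.map_nil, List.mem_singleton] at hy
  rcases hy with ⟨i, -, rfl⟩ | rfl
  · exact algHom_X_mem_maximalIdeal L.φ i
  · have h3 : L.φ (C ϖ) = C ϖ := by
      rw [c_eq_algebraMap]
      exact L.φ.commutes ϖ
    rw [h3]
    exact hmem _ (by simp [paramList])

end Patch

end Fermat.Agent.S57.H28
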